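/-
PROJECT T (S56), block (a1-II) = S56/Base, (TAIL) leaf (F1) (helper4): SEMILOCAL SHAPIRO IS ONTO ON
`p`-TORSION IN DEGREE TWO, for the arithmetic datum of main (`k = ℤ_(p)`, `J = J_S ⊗ ℤ_(p)`,
`D_q = ℚ̄_qˣ ⊗ ℤ_(p)`), without hypotheses.

`surjective_loc` discharges the two inputs of `LocSurj/Glue.exists_map_locHom_eq_of`:
* `DegHyp`  by helper9's `Arith/LocalDegree.exists_level_le_dvd_relIndex` (the local degrees of
  `ℚ_S` are divisible by `p^∞`, because `ℚ(μ_{p^∞}) ⊂ ℚ_S`);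
* `InflHyp` by helper10's `TNLC.exists_infl_eq_of_torsion` for the local class formation `cfDloc`.
-/
import Fermat.Agent.S56.Base.Tail.LocSurj.Glue
import Fermat.Agent.S56.Base.Arith.LocalDegree
import Fermat.Agent.S56.Base.TNLC
import Fermat.Agent.CFT.D.Datum.Build

set_option autoImplicit false

noncomputable section

namespace Fermat.Agent.S56.Base.Tail.LocSurj

open CategoryTheory groupCohomology ExtCitation Fermat.Agent.CFT.LC Fermat.Agent.CFT.LC.El
  Fermat.Agent.CFT.Bridge Fermat.Agent.CFT.A7 Fermat.Agent.CFT.A7.HomRep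
  Fermat.Agent.CFT.A7.BaseChange Fermat.Agent.CFT.D Fermat.Agent.CFT.D.Reduce
  Fermat.Agent.CFT.D.ZpModel Fermat.Agent.CFT.D.DatumBuild Fermat.Agent.CFT.D.DatumInjFrob

variable (p : ℕ) [Fact p.Prime] (S : Finset Nat.Primes)

/-- `InflHyp` holds for every lattice, by Tate–Nakayama on the layers of the local class
formation (helper10's `TNLC.exists_infl_eq_of_torsion`). -/
theorem inflHyp (q : ↥S) (B : Rep.{0} (Zp p) GQ) [Module.Free (Zp p) B.V]
    [Module.Finite (Zp p) B.V] : InflHyp S (Zp p) p q B := by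
  intro V₀ V hV₀N hVN hV₀ hV hle hB hdvd y hy
  have : Module.Free (Zp p) (Rep.res (rv S q) B).V := ‹Module.Free (Zp p) B.V›
  have : Module.Finite (Zp p) (Rep.res (rv S q) B).V := ‹Module.Finite (Zp p) B.V›
  exact TNLC.exists_infl_eq_of_torsion (addHomsLinear p) (cfDloc p S q) (Rep.res (rv S q) B) p
    V₀ V hV₀ hV hle hB hdvd y hy

/-- **(F1)**: for a lattice `B` on which a level of `levelsS S` acts trivially, every family of
`p`-torsion classes `y q ∈ H²(G_q, Hom(B, D_q))`, `q ∈ S`, is the localisation of a class of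
`H²(G_S, Hom(B, J_S ⊗ ℤ_(p)))`. -/
theorem surjective_loc (hpS : pPrime p ∈ S) (B : Rep.{0} (Zp p) GQ) [Module.Free (Zp p) B.V]
    [Module.Finite (Zp p) B.V]
    (hB : ∃ U ∈ (levelsS S).sets, ∀ u ∈ U, ∀ b : B.V, B.ρ u b = b)
    (y : ∀ q : ↥S, H (Uv S q) (homRep (Rep.res (rv S q) B) (DlocK S (Zp p) q)) 2)
    (hy : ∀ q, ((p : ℕ) : Zp p) • y q = 0) :
    ∃ x : H (levelsS S) (homRep B (JK S (Zp p))) 2,
      ∀ q, map (A := homRep B (JK S (Zp p)))
        (B := homRep (Rep.res (rv S q) B) (DlocK S (Zp p) q)) (hrv S q)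
        (locHom (rv S) q B (JK S (Zp p)) (piJK S (Zp p) q)) 2 x = y q :=
  exists_map_locHom_eq_of S (Zp p) (primeTo p) p B hB
    (Arith.LocalDegree.exists_level_le_dvd_relIndex S p hpS) (fun q => inflHyp p S q B) y hy

end Fermat.Agent.S56.Base.Tail.LocSurj
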