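/-
PROJECT T (S56), block (a1-II), slice (TAIL0) (helper28): `H¹` of the kernel lattice `RA A` of the
canonical permutation resolution, and torsion of level-constant cohomology.

* `h1_eq_zero_of_onto` : for a short exact `X₁ → X₂ → X₃` with `H¹(X₂) = 0` and `X₂^G → X₃^G` onto,
  `H¹(X₁) = 0`;
* `eq_zero_of_H1_RA`, `eq_zero_of_H1_res_RA` : `H¹_LC(G, RA A) = 0`, also after restriction along a
  continuous homomorphism (`FA A = k[A]` is a permutation lattice and `[a] ↦ a` is onto on the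
  invariants of every subgroup);
* `smul_eq_zero_of_forall` : a scalar killing the coefficients kills the cohomology.
-/
import Fermat.Agent.CFT.LC.Elementwise
import Fermat.Agent.CFT.A7.HomRepLC
import Fermat.Agent.CFT.D.Resolution

set_option autoImplicit false

universe u

namespace Fermat.Agent.S56.Base.Tail

open CategoryTheory Fermat.Agent.CFT.LC Fermat.Agent.CFT.LC.El Fermat.Agent.CFT.A7.HomRep
  Fermat.Agent.CFT.D

variable {k G : Type u} [CommRing k] [Group G]

section H1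

variable {𝒰 : Levels G} [𝒰.IsFin]

/-- `H¹(X₁) = 0` when `H¹(X₂) = 0` and `X₂^G → X₃^G` is onto. -/
theorem h1_eq_zero_of_onto {X : ShortComplex (Rep.{u} k G)} (hX : X.ShortExact)
    (hsm : IsSmooth 𝒰 X.X₂) (hF1 : ∀ x : H 𝒰 X.X₂ 1, x = 0)
    (honto : ∀ a : X.X₃.V, (∀ g : G, X.X₃.ρ g a = a) →
      ∃ f : X.X₂.V, (∀ g : G, X.X₂.ρ g f = f) ∧ X.g.hom f = a)
    (x : H 𝒰 X.X₁ 1) : x = 0 := by
  obtain ⟨c, rfl⟩ := exists_lcδ_eq hX hsm 0 1 rfl x (hF1 _)
  obtain ⟨f, hf, hfa⟩ := honto (h0Equiv 𝒰 X.X₃ c).1 (h0Equiv 𝒰 X.X₃ c).2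
  have hc : c = mapId X.g 0 ((h0Equiv 𝒰 X.X₂).symm ⟨f, hf⟩) := by
    apply (h0Equiv 𝒰 X.X₃).injective
    apply Subtype.ext
    rw [h0Equiv_mapId, LinearEquiv.apply_symm_apply]
    exact hfa.symm
  rw [hc, lcδ_mapId_g_apply]

/-- The invariant basis vector `[a]` of `FA A` over an invariant `a`. -/
lemma FA_basis_invariant (A : Rep.{u} k G) (a : A.V) (g : G) (ha : A.ρ g a = a) :
    (Resolution.FA A).ρ g (Resolution.basisFA A ⟨a⟩) = Resolution.basisFA A ⟨a⟩ := by
  rw [Resolution.FA_ρ_basis]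
  congr 1
  exact Resolution.Pts.ext ha

/-- **`H¹_LC(G, RA A) = 0`.** -/
theorem eq_zero_of_H1_RA (A : Rep.{u} k G) [Finite A.V] [IsDomain k] [CharZero k]
    (hA : IsSmooth 𝒰 A) (x : H 𝒰 (Resolution.RA A) 1) : x = 0 :=
  h1_eq_zero_of_onto (X := Resolution.SA A) (Resolution.SA_shortExact A)
    (Resolution.isSmooth_FA A hA) (fun y => Resolution.eq_zero_of_H1_FA A hA y)
    (fun a ha => ⟨Resolution.basisFA A ⟨a⟩, fun g => FA_basis_invariant A a g (ha g),
      Resolution.piA_basis A ⟨a⟩⟩) x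

/-- **`H¹_LC(G', Res RA A) = 0`** for every continuous `r : G' →* G`. -/
theorem eq_zero_of_H1_res_RA {G' : Type u} [Group G'] {𝒰' : Levels G'} [𝒰'.IsFin] (r : G' →* G)
    (hr : Levels.Continuous r 𝒰' 𝒰) (A : Rep.{u} k G) [Finite A.V] [IsDomain k] [CharZero k]
    (hA : IsSmooth 𝒰 A) (x : H 𝒰' (Rep.res r (Resolution.RA A)) 1) : x = 0 :=
  h1_eq_zero_of_onto (X := (Resolution.SA A).map (Rep.resFunctor r))
    ((Rep.shortExact_res r).mpr (Resolution.SA_shortExact A))
    (IsSmooth.res_of_continuous hr (Resolution.isSmooth_FA A hA))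
    (fun y => Resolution.eq_zero_of_H1_res_FA A r hr hA y)
    (fun a ha => ⟨Resolution.basisFA A ⟨a⟩, fun g => FA_basis_invariant A a (r g) (ha g),
      Resolution.piA_basis A ⟨a⟩⟩) x

end H1

section Torsion

variable (𝒰 : Levels G)

/-- A scalar killing the coefficients kills the level-constant cohomology. -/
theorem smul_eq_zero_of_forall (A : Rep.{u} k G) (c : k) (hc : ∀ a : A.V, c • a = 0) (n : ℕ)
    (x : H 𝒰 A n) : c • x = 0 := by
  induction x using H_induction_on with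
  | h z =>
  rw [← map_smul]
  have : c • z = 0 := by
    apply Subtype.ext
    apply Subtype.ext
    funext t
    exact hc _
  rw [this, map_zero]

end Torsion

end Fermat.Agent.S56.Base.Tail
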