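/-
PROJECT T (S56), block (a1-II), slice (TAIL0) (helper28): the layers of `Hom(B, C)`.

If the normal subgroup `U` acts trivially on `B`, the layer `Hom(B, C)^U` of `Hom(B, C)` is, as a
representation of `G ⧸ U`, the module `Hom(B^U, C^U)` of the layers:

* `layerHom B C U hB : Hom(B, C)^U ⟶ Hom(B^U, C^U)`, an isomorphism (`isIso_layerHom`);
* `layerHom_evHom` : evaluation at an invariant `b ∈ B^G` on `Hom(B^U, C^U)` corresponds to the
  layer of the evaluation `Hom(B, C) ⟶ C`;
* `map_layerHom_injective` : `layerHom` is injective on the cohomology of `G ⧸ U`.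
-/
import Fermat.Agent.CFT.A7.Limit
import Fermat.Agent.CFT.A7.HomRep
import Fermat.Agent.CFT.A7.HomSplit

set_option autoImplicit false

noncomputable section

namespace Fermat.Agent.S56.Base.Tail

open CategoryTheory groupCohomology Fermat.Agent.CFT.LC Fermat.Agent.CFT.A7
  Fermat.Agent.CFT.A7.HomRep

variable {k G : Type} [CommRing k] [Group G] (B C : Rep.{0} k G) (U : Subgroup G) [U.Normal]

/-- The values of a `U`-invariant homomorphism on `U`-invariant vectors are `U`-invariant. -/
lemma toLin_invariant_of_invariant (f : (homRep B C).quotientToInvariants U)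
    (b : B.quotientToInvariants U) (u : U) :
    C.ρ (u : G) (toLin f.1 b.1) = toLin f.1 b.1 := by
  have h1 := (ρ_eq_self_iff B C (u : G) f.1).1 (f.2 u) b.1
  rw [show B.ρ (u : G) b.1 = b.1 from b.2 u] at h1
  exact h1.symm

/-- The underlying linear map of `layerHom`. -/
def layerHomLin :
    ((homRep B C).quotientToInvariants U).V →ₗ[k]
      (homRep (B.quotientToInvariants U) (C.quotientToInvariants U)).V where
  toFun f := toLin.symm
    { toFun := fun b => ⟨toLin f.1 b.1, fun u => toLin_invariant_of_invariant B C U f b u⟩
      map_add' := fun b b' => Subtype.ext (map_add (toLin f.1) b.1 b'.1)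
      map_smul' := fun c b => Subtype.ext (map_smul (toLin f.1) c b.1) }
  map_add' _ _ := rfl
  map_smul' _ _ := rfl

lemma layerHomLin_apply_coe (f : (homRep B C).quotientToInvariants U)
    (b : B.quotientToInvariants U) :
    ((toLin (layerHomLin B C U f) b).1 : C.V) = toLin f.1 b.1 := rfl

/-- **The layer of `Hom(B, C)`** maps to `Hom(B^U, C^U)`. -/
def layerHom :
    (homRep B C).quotientToInvariants U ⟶
      homRep (B.quotientToInvariants U) (C.quotientToInvariants U) :=
  Rep.ofHom ⟨layerHomLin B C U, fun c => QuotientGroup.induction_on c fun g => by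
    ext f b
    rfl⟩

lemma layerHom_hom_apply (f : (homRep B C).quotientToInvariants U) :
    (layerHom B C U).hom f = layerHomLin B C U f := rfl

variable {B C U} in
/-- If `U` acts trivially on `B`, `layerHom` is bijective. -/
theorem layerHom_bijective (hB : ∀ u ∈ U, ∀ b : B.V, B.ρ u b = b) :
    Function.Bijective (layerHom B C U).hom := by
  constructor
  · intro f f' h
    apply Subtype.ext
    apply homRep_ext
    intro b
    have h1 := congrArg (fun F : (homRep (B.quotientToInvariants U)
      (C.quotientToInvariants U)).V => ((toLin F ⟨b, fun u => hB u.1 u.2 b⟩).1 : C.V)) h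
    exact h1
  · intro F
    let L : B.V →ₗ[k] C.V :=
      { toFun := fun b => ((toLin F ⟨b, fun u => hB u.1 u.2 b⟩).1 : C.V)
        map_add' := fun b b' => by
          have : (⟨b + b', fun u => hB u.1 u.2 (b + b')⟩ : B.quotientToInvariants U) =
              ⟨b, fun u => hB u.1 u.2 b⟩ + ⟨b', fun u => hB u.1 u.2 b'⟩ := rfl
          rw [this, map_add]
          rfl
        map_smul' := fun c b => by
          have : (⟨c • b, fun u => hB u.1 u.2 (c • b)⟩ : B.quotientToInvariants U) =
              c • ⟨b, fun u => hB u.1 u.2 b⟩ := rfl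
          rw [this, map_smul]
          rfl }
    have hL : ∀ u : U, (homRep B C).ρ (u : G) (toLin.symm L) = toLin.symm L := by
      intro u
      rw [ρ_eq_self_iff]
      intro b
      rw [hB (u : G) u.2 b]
      exact ((toLin F ⟨b, fun u => hB u.1 u.2 b⟩).2 u).symm
    refine ⟨⟨toLin.symm L, hL⟩, ?_⟩
    apply homRep_ext
    intro b
    apply Subtype.ext
    rfl

variable {B C U} in
theorem isIso_layerHom (hB : ∀ u ∈ U, ∀ b : B.V, B.ρ u b = b) : IsIso (layerHom B C U) :=
  (ConcreteCategory.isIso_iff_bijective _).2 (layerHom_bijective hB)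

/-- The map induced by `layerHom` on the cohomology of `G ⧸ U`. -/
abbrev layerHomCoh (n : ℕ) :
    groupCohomology ((homRep B C).quotientToInvariants U) n ⟶
      groupCohomology (homRep (B.quotientToInvariants U) (C.quotientToInvariants U)) n :=
  groupCohomology.map (A := (homRep B C).quotientToInvariants U)
    (B := homRep (B.quotientToInvariants U) (C.quotientToInvariants U))
    (MonoidHom.id (G ⧸ U)) (layerHom B C U) n

variable {B C U} in
/-- `layerHom` is injective on cohomology. -/
theorem layerHomCoh_injective (hB : ∀ u ∈ U, ∀ b : B.V, B.ρ u b = b) (n : ℕ) :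
    Function.Injective (layerHomCoh B C U n).hom := by
  have := isIso_layerHom (C := C) hB
  intro x y hxy
  have h : ∀ z, (groupCohomology.map
      (A := homRep (B.quotientToInvariants U) (C.quotientToInvariants U))
      (B := (homRep B C).quotientToInvariants U)
      (MonoidHom.id (G ⧸ U)) (inv (layerHom B C U)) n).hom
      ((layerHomCoh B C U n).hom z) = z := fun z => by
    have h1 := groupCohomology.map_id_comp (layerHom B C U) (inv (layerHom B C U)) n
    rw [IsIso.hom_inv_id] at h1
    have h0 : groupCohomology.map (MonoidHom.id (G ⧸ U))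
        (𝟙 (Rep.res (MonoidHom.id (G ⧸ U)) ((homRep B C).quotientToInvariants U))) n = 𝟙 _ :=
      groupCohomology.map_id (B := (homRep B C).quotientToInvariants U) n
    have h2 := ConcreteCategory.congr_hom (h1.symm.trans h0) z
    rw [ConcreteCategory.comp_apply] at h2
    exact h2
  rw [← h x, ← h y]
  exact congrArg _ hxy

/-- Evaluation at an invariant vector, on the layers. -/
theorem layerHom_evHom (b : B.V) (hb : ∀ g : G, B.ρ g b = b) :
    layerHom B C U ≫ HomSplit.evHom (B.quotientToInvariants U) (C.quotientToInvariants U)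
        ⟨b, fun u => hb u.1⟩
        (fun c => QuotientGroup.induction_on c fun g => Subtype.ext (hb g)) =
      layerMap (HomSplit.evHom B C b hb) U := by
  apply Rep.hom_ext
  ext f
  rfl

end Fermat.Agent.S56.Base.Tail
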