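/-
PROJECT T (S56), block (a1-II), slice (TAIL0) (helper28): Tate–Nakayama for `Hom(B, C)` in the
level-constant model.

`cf : ClassFormation 𝒰 C` a class formation over `k` (a PID of characteristic zero with
`AddHomsLinear k`, or more generally `NTSupply k`), `B` a `k`-lattice on which a level `U₀` acts
trivially.

* `tnc20_injective` : a class `x ∈ H²_LC(G, Hom(B, C))` all of whose evaluations
  `(ev_b)_* x ∈ H²_LC(G, C)` at the invariant vectors `b ∈ B^G` vanish is zero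
  ((TN-20), injectivity, passed to the limit);
* `tnc11_zero` : if `H¹_LC(G, B) = 0` then `H¹_LC(G, Hom(B, C)) = 0`
  ((TN-11), left non-degeneracy, passed to the limit).
-/
import Fermat.Agent.S56.Base.Tail.LayerHom
import Fermat.Agent.CFT.D.NTGlue
import Fermat.Agent.CFT.D.H4.InflInj

set_option autoImplicit false

noncomputable section

namespace Fermat.Agent.S56.Base.Tail

open CategoryTheory groupCohomology Fermat.Agent.CFT.LC Fermat.Agent.CFT.A5
  Fermat.Agent.CFT.A7 Fermat.Agent.CFT.A7.HomRep Fermat.Agent.CFT.A7.NT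
  Fermat.Agent.CFT.D.NTGlue Fermat.Agent.CFT.D.Realize

variable {k G : Type} [CommRing k] [Group G] {𝒰 : Levels G} {C : Rep.{0} k G}

/-- **(TN-20), injectivity, in the limit.** -/
theorem tnc20_injective_of_supply [IsDomain k] [CharZero k] (hK : NTSupply k)
    (cf : ClassFormation 𝒰 C) (B : Rep.{0} k G) [Module.Free k B.V] [Module.Finite k B.V]
    (U₀ : Subgroup G) (hU₀ : U₀ ∈ 𝒰.sets) (hB : ∀ u ∈ U₀, ∀ b : B.V, B.ρ u b = b)
    (x : H 𝒰 (homRep B C) 2)
    (hx : ∀ (b : B.V) (hb : ∀ g : G, B.ρ g b = b),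
      (mapId (𝒰 := 𝒰) (HomSplit.evHom B C b hb) 2).hom x = 0) : x = 0 := by
  obtain ⟨U₁, hU₁n, hU₁, y₁, rfl⟩ := exists_infl_eq 𝒰 (homRep B C) x
  obtain ⟨U, hU, hUle⟩ := 𝒰.directed U₁ hU₁ U₀ hU₀
  have hUn := 𝒰.normal U hU
  have hUU₁ : U ≤ U₁ := hUle.trans inf_le_left
  have hUU₀ : U ≤ U₀ := hUle.trans inf_le_right
  rw [← inflFin_infl_apply (homRep B C) 𝒰 U₁ U hUU₁ hU₁ hU 2 y₁] at hx ⊢
  set y := (inflFin (homRep B C) U₁ U hUU₁ 2).hom y₁ with hy
  have hBU : ∀ u ∈ U, ∀ b : B.V, B.ρ u b = b := fun u hu b => hB u (hUU₀ hu) b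
  have : U.FiniteIndex := cf.finiteIndex U hU
  have : Finite (G ⧸ U) := Subgroup.finite_quotient_of_finiteIndex
  let _ : Fintype (G ⧸ U) := Fintype.ofFinite _
  have := free_layer U B hBU
  have := finite_layer U B hBU
  have hNT : NTHyp (B.quotientToInvariants U) (C.quotientToInvariants U) (cf.φ U hU) :=
    hK (G ⧸ U) _ _ (cf.isClassModule U hU) _ inferInstance inferInstance
  have hy0 : y = 0 := by
    apply layerHomCoh_injective (C := C) hBU 2
    rw [map_zero]
    refine TN20.tn20_injective _ _ (cf.φ U hU) hNT.hR1 hNT.hE2 hNT.hord hNT.LD1 _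
      (fun r hr => ?_)
    have hb : ∀ g : G, B.ρ g r.1 = r.1 := fun g => congrArg Subtype.val (hr (g : G ⧸ U))
    have h1 := hx r.1 hb
    rw [infl_mapId] at h1
    have h2 := (injective_iff_map_eq_zero _).1 (cf.infl_two_injective U hU) _ h1
    have e : layerHom B C U ≫ HomSplit.evHom (B.quotientToInvariants U)
        (C.quotientToInvariants U) r hr = layerMap (HomSplit.evHom B C r.1 hb) U :=
      layerHom_evHom B C U r.1 hb
    have h3 := groupCohomology.map_id_comp (layerHom B C U)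
      (HomSplit.evHom (B.quotientToInvariants U) (C.quotientToInvariants U) r hr) 2
    rw [e] at h3
    have h4 := ConcreteCategory.congr_hom h3 y
    rw [ConcreteCategory.comp_apply] at h4
    exact h4.symm.trans h2
  rw [hy0, map_zero]

/-- **(TN-20), injectivity, in the limit**, over a PID of characteristic zero with
`AddHomsLinear` (`k = ℤ_(p)`). -/
theorem tnc20_injective [IsDomain k] [IsPrincipalIdealRing k] [CharZero k]
    (hR : AddHomsLinear k) (cf : ClassFormation 𝒰 C) (B : Rep.{0} k G) [Module.Free k B.V]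
    [Module.Finite k B.V] (U₀ : Subgroup G) (hU₀ : U₀ ∈ 𝒰.sets)
    (hB : ∀ u ∈ U₀, ∀ b : B.V, B.ρ u b = b) (x : H 𝒰 (homRep B C) 2)
    (hx : ∀ (b : B.V) (hb : ∀ g : G, B.ρ g b = b),
      (mapId (𝒰 := 𝒰) (HomSplit.evHom B C b hb) 2).hom x = 0) : x = 0 :=
  tnc20_injective_of_supply (ntSupply_of_pid hR) cf B U₀ hU₀ hB x hx

/-- **(TN-11), left non-degeneracy, in the limit**: `H¹_LC(G, B) = 0 ⇒ H¹_LC(G, Hom(B, C)) = 0`. -/
theorem tnc11_zero_of_supply [IsDomain k] [CharZero k] (hK : NTSupply k)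
    (cf : ClassFormation 𝒰 C) (B : Rep.{0} k G) [Module.Free k B.V] [Module.Finite k B.V]
    (U₀ : Subgroup G) (hU₀ : U₀ ∈ 𝒰.sets) (hB : ∀ u ∈ U₀, ∀ b : B.V, B.ρ u b = b)
    (hH1 : ∀ y : H 𝒰 B 1, y = 0) (x : H 𝒰 (homRep B C) 1) : x = 0 := by
  obtain ⟨U₁, hU₁n, hU₁, y₁, rfl⟩ := exists_infl_eq 𝒰 (homRep B C) x
  obtain ⟨U, hU, hUle⟩ := 𝒰.directed U₁ hU₁ U₀ hU₀
  have hUn := 𝒰.normal U hU
  have hUU₁ : U ≤ U₁ := hUle.trans inf_le_left
  have hUU₀ : U ≤ U₀ := hUle.trans inf_le_right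
  rw [← inflFin_infl_apply (homRep B C) 𝒰 U₁ U hUU₁ hU₁ hU 1 y₁]
  set y := (inflFin (homRep B C) U₁ U hUU₁ 1).hom y₁ with hy
  have hBU : ∀ u ∈ U, ∀ b : B.V, B.ρ u b = b := fun u hu b => hB u (hUU₀ hu) b
  have : U.FiniteIndex := cf.finiteIndex U hU
  have : Finite (G ⧸ U) := Subgroup.finite_quotient_of_finiteIndex
  let _ : Fintype (G ⧸ U) := Fintype.ofFinite _
  have := free_layer U B hBU
  have := finite_layer U B hBU
  have hNT : NTHyp (Fermat.Agent.CFT.A2.up (B.quotientToInvariants U)) (C.quotientToInvariants U) (cf.φ U hU) :=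
    hK (G ⧸ U) _ _ (cf.isClassModule U hU) _ inferInstance inferInstance
  have hL : TN11.LeftNondeg (B.quotientToInvariants U) (C.quotientToInvariants U) 1 1 2
      (by omega) :=
    TN11.leftNondeg_up (B.quotientToInvariants U) (C.quotientToInvariants U) (p := 0) (q := 0)
      (n := 1) (by omega) hNT.leftNondeg
  have hy0 : y = 0 := by
    apply layerHomCoh_injective (C := C) hBU 1
    rw [map_zero]
    refine hL _ (fun z => ?_)
    have hz : z = 0 := by
      apply Fermat.Agent.CFT.D.H4.infl_one_injective B 𝒰 U hU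
      rw [map_zero]
      exact hH1 _
    rw [hz, map_zero]
  rw [hy0, map_zero]

/-- **(TN-11), left non-degeneracy, in the limit**, over a PID of characteristic zero with
`AddHomsLinear` (`k = ℤ_(p)`). -/
theorem tnc11_zero [IsDomain k] [IsPrincipalIdealRing k] [CharZero k]
    (hR : AddHomsLinear k) (cf : ClassFormation 𝒰 C) (B : Rep.{0} k G) [Module.Free k B.V]
    [Module.Finite k B.V] (U₀ : Subgroup G) (hU₀ : U₀ ∈ 𝒰.sets)
    (hB : ∀ u ∈ U₀, ∀ b : B.V, B.ρ u b = b) (hH1 : ∀ y : H 𝒰 B 1, y = 0)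
    (x : H 𝒰 (homRep B C) 1) : x = 0 :=
  tnc11_zero_of_supply (ntSupply_of_pid hR) cf B U₀ hU₀ hB hH1 x

end Fermat.Agent.S56.Base.Tail
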