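/-
PROJECT T (S56), block (a1-II), slice (TAIL0) (helper28): the export.

`dat : D.Main.Datum S φ` the arithmetic datum of Layer D (`k = ℤ_(p)`), `A` a finite smooth
`p`-torsion `G_S`-module over `k` with `H⁰(G_S, A) = 0`.  Then

  `H²(G_S, Hom(A, E)) → ∏_{q ∈ S} H²(G_q, Hom(A, D_q))`

is ONTO (`tail0`), provided the semilocal surjectivity `(F1)` for the permutation lattice
`FA A = k[A]` (hypothesis `hloc`): every `p`-torsion family of `∏_q H²(G_q, Hom(FA A, D_q))` is the
localisation of a class of `H²(G_S, Hom(FA A, J))`.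

This is the end `H²(G_S, A') → ∏ H²(G_q, A') → H⁰(G_S, A)^∨ → 0` of the Poitou–Tate sequence.  The
diagram chase is `Tail/Chase.exists_loc_eq_of_vanishing`; its inputs are
* `(hC1)`, `(hC1v)` : `H¹(Hom(RA A, C)) = 0`, `H¹(G_q, Hom(RA A, D_q)) = 0` (`Tail/TNC.tnc11_zero`
  and `Tail/H1Res`),
* `(hC2)` : `H²(Hom(FA A, C)) → H²(Hom(RA A, C))` is injective (`Tail/TNC.tnc20_injective` and
  `(FA A)^G ⊆ RA A` because `A^G = 0`),
* `(h4R)` : `dat.h4_two` for `RA A`.
-/
import Fermat.Agent.S56.Base.Tail.Chase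
import Fermat.Agent.S56.Base.Tail.TNC
import Fermat.Agent.S56.Base.Tail.H1Res
import Fermat.Agent.CFT.D.Main

set_option autoImplicit false

namespace Fermat.Agent.S56.Base.Tail

open CategoryTheory Fermat.Agent.CFT.LC Fermat.Agent.CFT.LC.El Fermat.Agent.CFT.Bridge
  Fermat.Agent.CFT.A7.HomRep Fermat.Agent.CFT.D.Reduce Fermat.Agent.CFT.A7 Fermat.Agent.CFT.A5
  Fermat.Agent.CFT.D Fermat.Agent.CFT.D.Main

/-- A scalar killing `P` kills `Hom(P, X)`. -/
lemma smul_homRep_eq_zero {k G : Type} [CommRing k] [Group G] (P X : Rep.{0} k G) (c : k)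
    (hc : ∀ a : P.V, c • a = 0) (f : (homRep P X).V) : c • f = 0 := by
  apply homRep_ext
  intro v
  rw [map_smul, LinearMap.smul_apply, ← map_smul, hc, map_zero]
  rfl

section Main

variable {p : ℕ} [Fact p.Prime] (S : Finset Nat.Primes) {k : Type} [CommRing k] [IsDomain k]
  [IsPrincipalIdealRing k] [CharZero k] (φ : k →+* ZMod p)

/-- **(TAIL0)**: if `H⁰(G_S, A) = 0`, the localisation
`H²(G_S, Hom(A, E)) → ∏_q H²(G_q, Hom(A, D_q))` is onto. -/
theorem tail0 (hR : AddHomsLinear k) (dat : Datum S φ) (A : Rep.{0} k GQ) [Finite A.V]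
    (smA : IsSmooth (levelsS S) A) (hpA : ∀ a : A.V, ((p : ℕ) : k) • a = 0)
    (hA0 : ∀ a : A.V, (∀ g : GQ, A.ρ g a = a) → a = 0)
    (hloc : ∀ y : (∀ q : ↥S, H (Uv S q)
        (homRep (Rep.res (rv S q) (Resolution.FA A)) (dat.Dloc q)) 2),
      (∀ q, ((p : ℕ) : k) • y q = 0) →
      ∃ x : H (levelsS S) (homRep (Resolution.FA A) dat.SES.X₂) 2,
        ∀ q, map (A := homRep (Resolution.FA A) dat.SES.X₂)
          (B := homRep (Rep.res (rv S q) (Resolution.FA A)) (dat.Dloc q)) (hrv S q)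
          (locHom (rv S) q (Resolution.FA A) dat.SES.X₂ (dat.π q)) 2 x = y q)
    (z : ∀ q : ↥S, H (Uv S q) (Svof (Resolution.SA A) (rv S) dat.Dloc q).X₁ 2) :
    ∃ m : H (levelsS S) (homRep A dat.SES.X₁) 2,
      ∀ q, map (A := homRep A dat.SES.X₁)
        (B := (Svof (Resolution.SA A) (rv S) dat.Dloc q).X₁) (hrv S q)
        (locM (Resolution.SA A) (rv S) dat.π q) 2 m = z q := by
  classical
  -- the resolution
  have hprojR : Module.Projective k (Resolution.RA A).V := Resolution.projective_RA A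
  have hfreeR : Module.Free k (Resolution.RA A).V := Resolution.free_RA A
  have hfinR : Module.Finite k (Resolution.RA A).V := Resolution.finite_RA A
  have hprojR' : Module.Projective k (Resolution.SA A).X₁.V := hprojR
  have hfinF' : Module.Finite k (Resolution.SA A).X₂.V :=
    inferInstanceAs (Module.Finite k (Resolution.FA A).V)
  have hfinR' : Module.Finite k (Resolution.SA A).X₁.V := hfinR
  have smF : IsSmooth (levelsS S) (Resolution.SA A).X₂ := Resolution.isSmooth_FA A smA
  have smR : IsSmooth (levelsS S) (Resolution.SA A).X₁ := Resolution.isSmooth_RA A smA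
  have hSA : (Resolution.SA A).ShortExact := Resolution.SA_shortExact A
  have hpF : ∀ v : (Resolution.SA A).X₂.V, ∃ w : (Resolution.SA A).X₁.V,
      (Resolution.SA A).f.hom w = ((p : ℕ) : k) • v :=
    Resolution.exists_incl_eq_smul A ((p : ℕ) : k) hpA
  -- a level acting trivially on `F` and `R`
  obtain ⟨U₀, hU₀, hFtriv⟩ := PermH1.exists_level_trivial (Resolution.basisFA A)
    (Resolution.FA_ρ_basis A) (levelsS S) (Resolution.isOpen_stabilizer A smA)
  have hRtriv : ∀ u ∈ U₀, ∀ b : (Resolution.RA A).V, (Resolution.RA A).ρ u b = b :=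
    fun u hu b => Subtype.ext (hFtriv u hu b.1)
  -- the rows and columns
  have hSF : (SFof (Resolution.SA A) dat.SES).ShortExact := Resolution.SF_shortExact dat.exact
  have hSR : (SRof (Resolution.SA A) dat.SES).ShortExact := Resolution.SR_shortExact dat.exact
  have hSE : (homSC (Resolution.SA A) dat.SES.X₁).ShortExact :=
    homSC_shortExact_of_divisible (S := Resolution.SA A) hSA ((p : ℕ) : k) hpF dat.SES.X₁
      dat.divE
  have smFJ : IsSmooth (levelsS S) (homRep (Resolution.SA A).X₂ dat.SES.X₂) :=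
    isSmooth_homRep smF dat.smJ
  have smRJ : IsSmooth (levelsS S) (homRep (Resolution.SA A).X₁ dat.SES.X₂) :=
    isSmooth_homRep smR dat.smJ
  have smFE : IsSmooth (levelsS S) (homRep (Resolution.SA A).X₂ dat.SES.X₁) :=
    isSmooth_homRep smF dat.smE
  -- the local rows
  have hSv : ∀ q, (Svof (Resolution.SA A) (rv S) dat.Dloc q).ShortExact := fun q =>
    LocalRow.Sv_shortExact (rv S q) (dat.Dloc q) hSA ((p : ℕ) : k) hpA (dat.divD q)
  have smv : ∀ q, IsSmooth (Uv S q)
      (homRep (Rep.res (rv S q) (Resolution.SA A).X₂) (dat.Dloc q)) := fun q => by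
    have : Module.Finite k (Rep.res (rv S q) (Resolution.SA A).X₂).V :=
      inferInstanceAs (Module.Finite k (Resolution.FA A).V)
    exact isSmooth_homRep (IsSmooth.res_of_continuous (hrv S q) smF) (dat.smD q)
  -- (hC1): `H¹(Hom(R, C)) = 0`
  have hC1 : ∀ x : H (levelsS S) (homRep (Resolution.RA A) dat.SES.X₃) 1, x = 0 := fun x =>
    tnc11_zero hR dat.cf (Resolution.RA A) U₀ hU₀ hRtriv (fun y => eq_zero_of_H1_RA A smA y) x
  -- (hC1v): `H¹(G_q, Hom(R, D_q)) = 0`
  have hC1v : ∀ q, ∀ t : H (Uv S q)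
      (homRep (Rep.res (rv S q) (Resolution.RA A)) (dat.Dloc q)) 1, t = 0 := fun q t => by
    have hfree : Module.Free k (Rep.res (rv S q) (Resolution.RA A)).V := hfreeR
    have hfin : Module.Finite k (Rep.res (rv S q) (Resolution.RA A)).V := hfinR
    have hmem : U₀.comap (rv S q) ∈ (Uv S q).sets :=
      Levels.mem_comap_sets (mem_levelsAll_of_mem_levelsS S hU₀)
    have htriv : ∀ u ∈ U₀.comap (rv S q), ∀ b : (Rep.res (rv S q) (Resolution.RA A)).V,
        (Rep.res (rv S q) (Resolution.RA A)).ρ u b = b := fun u hu b => hRtriv _ hu b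
    exact tnc11_zero hR (dat.cfD q) (Rep.res (rv S q) (Resolution.RA A)) _ hmem htriv
      (fun y => eq_zero_of_H1_res_RA (rv S q) (hrv S q) A smA y) t
  -- (hC2): `H²(Hom(F, C)) → H²(Hom(R, C))` is injective, because `F^G ⊆ R`
  have hC2 : ∀ x : H (levelsS S) (homRep (Resolution.FA A) dat.SES.X₃) 2,
      mapId (homRes (Resolution.incl A) dat.SES.X₃) 2 x = 0 → x = 0 := fun x hx => by
    refine tnc20_injective hR dat.cf (Resolution.FA A) U₀ hU₀ hFtriv x (fun b hb => ?_)
    -- `b ∈ F^G` lies in `R`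
    have hb0 : (Resolution.piA A).hom b = 0 := hA0 _ (fun g => by
      rw [← Rep.hom_comm_apply, hb g])
    let r : (Resolution.RA A).V := ⟨b, hb0⟩
    have hr : ∀ g : GQ, (Resolution.RA A).ρ g r = r := fun g => Subtype.ext (hb g)
    have e : HomSplit.evHom (Resolution.FA A) dat.SES.X₃ b hb =
        homRes (Resolution.incl A) dat.SES.X₃ ≫
          HomSplit.evHom (Resolution.RA A) dat.SES.X₃ r hr := by
      ext f
      rfl
    rw [e]
    have h1 := mapId_mapId_apply (𝒰 := levelsS S) (homRes (Resolution.incl A) dat.SES.X₃)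
      (HomSplit.evHom (Resolution.RA A) dat.SES.X₃ r hr) 2 x
    rw [hx, map_zero] at h1
    exact h1.symm
  -- (hs2): the semilocal surjectivity for the family `(i_q)_* (z q)`
  have hs2 := hloc (fun q => mapId (Svof (Resolution.SA A) (rv S) dat.Dloc q).f 2 (z q))
    (fun q => by
      have h0 := smul_eq_zero_of_forall (Uv S q) _ ((p : ℕ) : k)
        (smul_homRep_eq_zero _ _ _ hpA) 2 (z q)
      have h1 : mapId (Svof (Resolution.SA A) (rv S) dat.Dloc q).f 2 (((p : ℕ) : k) • z q) =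
          ((p : ℕ) : k) • mapId (Svof (Resolution.SA A) (rv S) dat.Dloc q).f 2 (z q) :=
        (mapId (𝒰 := Uv S q) (Svof (Resolution.SA A) (rv S) dat.Dloc q).f 2).hom.map_smul _ _
      exact h1.symm.trans ((congrArg _ h0).trans (map_zero _)))
  exact exists_loc_eq_of_vanishing (SF := SFof (Resolution.SA A) dat.SES)
    (SR := SRof (Resolution.SA A) dat.SES) hSF hSR smFJ smRJ (rhoOf (Resolution.SA A) dat.SES)
    (iOf (Resolution.SA A) dat.SES) (iOf_rhoOf (Resolution.SA A) dat.SES) hSE smFE (rv S) (hrv S)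
    (Sv := Svof (Resolution.SA A) (rv S) dat.Dloc) hSv smv
    (locM (Resolution.SA A) (rv S) dat.π) (locF (Resolution.SA A) (rv S) dat.π)
    (locR (Resolution.SA A) (rv S) dat.π) (locF_c1 (Resolution.SA A) (rv S) dat.π)
    (locR_c2 (Resolution.SA A) (rv S) dat.π) hC1 hC2
    (dat.h4_two (Resolution.RA A) ⟨U₀, hU₀, hRtriv⟩) hC1v z hs2

end Main

end Fermat.Agent.S56.Base.Tail
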