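/-
PROJECT T (S56), block (a1-II) = S56/Base, (TAIL) (helper4): THE END OF THE POITOU–TATE SEQUENCE FOR
THE ARITHMETIC DATUM OF MAIN, WITHOUT HYPOTHESES.

`tail0_theDatum`: for `p ∈ S`, the global inputs `g` of Layer C and a finite smooth `ℤ_(p)[G_S]`-module
`A` killed by `p` with `H⁰(G_S, A) = 0`, the localisation

  `H²(G_S, Hom(A, E_S ⊗ ℤ_(p))) → ∏_{q ∈ S} H²(G_q, Hom(A, ℚ̄_qˣ ⊗ ℤ_(p)))`

is onto.  It is helper28's `Tail.tail0` with its hypothesis `hloc` discharged by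
`LocSurj.surjective_loc` for the permutation lattice `FA A`.
-/
import Fermat.Agent.S56.Base.Tail.LocSurj
import Fermat.Agent.S56.Base.Tail.Main

set_option autoImplicit false

noncomputable section

namespace Fermat.Agent.S56.Base.Tail.Final

open CategoryTheory ExtCitation Fermat.Agent.CFT.LC Fermat.Agent.CFT.LC.El Fermat.Agent.CFT.Bridge
  Fermat.Agent.CFT.A7 Fermat.Agent.CFT.A7.HomRep Fermat.Agent.CFT.D Fermat.Agent.CFT.D.Main
  Fermat.Agent.CFT.D.Reduce Fermat.Agent.CFT.D.ZpModel Fermat.Agent.CFT.D.DatumBuild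

variable {p : ℕ} [Fact p.Prime] {S : Finset Nat.Primes}

/-- **(TAIL0) for the datum of main**: if `H⁰(G_S, A) = 0`, the localisation
`H²(G_S, Hom(A, E)) → ∏_q H²(G_q, Hom(A, D_q))` is onto. -/
theorem tail0_theDatum (hpS : pPrime p ∈ S) (g : GlobalInputs p S) (A : Rep.{0} (Zp p) GQ)
    [Finite A.V] (smA : IsSmooth (levelsS S) A) (hpA : ∀ a : A.V, ((p : ℕ) : Zp p) • a = 0)
    (hA0 : ∀ a : A.V, (∀ s : GQ, A.ρ s a = a) → a = 0)
    (z : ∀ q : ↥S, H (Uv S q) (Svof (Resolution.SA A) (rv S) (theDatum hpS g).Dloc q).X₁ 2) :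
    ∃ m : H (levelsS S) (homRep A (theDatum hpS g).SES.X₁) 2,
      ∀ q, map (A := homRep A (theDatum hpS g).SES.X₁)
        (B := (Svof (Resolution.SA A) (rv S) (theDatum hpS g).Dloc q).X₁) (hrv S q)
        (locM (Resolution.SA A) (rv S) (theDatum hpS g).π q) 2 m = z q := by
  obtain ⟨U₀, hU₀, hFtriv⟩ := PermH1.exists_level_trivial (Resolution.basisFA A)
    (Resolution.FA_ρ_basis A) (levelsS S) (Resolution.isOpen_stabilizer A smA)
  exact tail0 S (phi p) (addHomsLinear p) (theDatum hpS g) A smA hpA hA0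
    (fun y hy => LocSurj.surjective_loc p S hpS (Resolution.FA A) ⟨U₀, hU₀, hFtriv⟩ y hy) z

end Fermat.Agent.S56.Base.Tail.Final
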