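/-
PROJECT T (S56), block (a1-II), slice (TAIL0) (helper28): the abstract diagram chase.

Same diagram as `CFT/D/ShaTwo.lean` (THEOREM I of Layer D):

      M    --i-->  ΦF E --ρ₁--> ΦR E        (short exact)
                    |            |
                   ΦF J --ρ₂--> ΦR J
                    |            |
                   ΦF C --ρ₃--> ΦR C

with short exact columns `SF`, `SR`, and for every place `v` a short exact local row
`Sv v : Mv → FD → RD` receiving the restrictions of `M`, `ΦF J`, `ΦR J`.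

`exists_loc_eq` : **the localisation map `H²(M) → ∏_v H²(G_v, M_v)` is onto**, provided

* `(hC1)` `H¹(ΦR C) = 0`,
* `(hC2)` `H²(ΦF C) → H²(ΦR C)` is injective,
* `(h4R)` `H²(ΦR J)` injects into the product of the local `H²(RD)` (semilocal Shapiro, injectivity),
* `(hs2)`, `(hs1)` the localisation maps `H²(ΦF J) → ∏ H²(FD)` and `H¹(ΦR J) → ∏ H¹(RD)` are onto
  (semilocal Shapiro, surjectivity).

`exists_loc_eq_of_vanishing` : the variant actually used by `Tail/Main`: when `H¹(G_v, RD_v) = 0`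
for all `v` (true for the canonical permutation resolution), `(hs1)` is not needed and `(hs2)` is
only needed for the one family `(i_v)_* (z v)`.

This is the tail `H²(G_S, A') → ∏ H²(G_q, A') → H⁰(G_S, A)^∨ → 0` of the Poitou–Tate sequence in
the case `H⁰(G_S, A) = 0` (which is what makes `(hC1)`, `(hC2)` true).  Everything is level-constant
cohomology (`Fermat.Agent.CFT.LC`).
-/
import Fermat.Agent.CFT.D.ShaTwo

set_option autoImplicit false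

universe u

namespace Fermat.Agent.S56.Base.Tail

open CategoryTheory Fermat.Agent.CFT.LC Fermat.Agent.CFT.LC.El Fermat.Agent.CFT.D

variable {k G : Type u} [CommRing k] [Group G] {𝒰 : Levels G} [𝒰.IsFin]

variable {SF SR : ShortComplex (Rep.{u} k G)} (hSF : SF.ShortExact) (hSR : SR.ShortExact)
  (smF : IsSmooth 𝒰 SF.X₂) (smR : IsSmooth 𝒰 SR.X₂) (ρ : SF ⟶ SR)
  {M : Rep.{u} k G} (i : M ⟶ SF.X₁) (hi : i ≫ ρ.τ₁ = 0)
  (hSE : (ShortComplex.mk i ρ.τ₁ hi).ShortExact) (smE : IsSmooth 𝒰 SF.X₁)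

variable {ι : Type*} {Gv : ι → Type u} [∀ v, Group (Gv v)] (r : ∀ v, Gv v →* G)
  {𝒰v : ∀ v, Levels (Gv v)} [∀ v, (𝒰v v).IsFin]
  (hr : ∀ v, Levels.Continuous (r v) (𝒰v v) 𝒰)
  {Sv : ∀ v, ShortComplex (Rep.{u} k (Gv v))} (hSv : ∀ v, (Sv v).ShortExact)
  (smv : ∀ v, IsSmooth (𝒰v v) (Sv v).X₂)
  (m : ∀ v, Rep.res (r v) M ⟶ (Sv v).X₁) (f : ∀ v, Rep.res (r v) SF.X₂ ⟶ (Sv v).X₂)
  (g : ∀ v, Rep.res (r v) SR.X₂ ⟶ (Sv v).X₃)
  (c1 : ∀ v, (Rep.resFunctor (r v)).map (i ≫ SF.f) ≫ f v = m v ≫ (Sv v).f)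
  (c2 : ∀ v, (Rep.resFunctor (r v)).map ρ.τ₂ ≫ g v = f v ≫ (Sv v).g)

include hSF smF hSR smR hSE smE c1 c2 hSv smv in
/-- **(TAIL0), abstract form**: every family of local classes `z v ∈ H²(G_v, M_v)` is the
localisation of a global class of `H²(M)`. -/
theorem exists_loc_eq
    (hC1 : ∀ x : H 𝒰 SR.X₃ 1, x = 0)
    (hC2 : ∀ x : H 𝒰 SF.X₃ 2, mapId ρ.τ₃ 2 x = 0 → x = 0)
    (h4R : ∀ x : H 𝒰 SR.X₂ 2,
      (∀ v, map (A := SR.X₂) (B := (Sv v).X₃) (hr v) (g v) 2 x = 0) → x = 0)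
    (hs2 : ∀ y : ∀ v, H (𝒰v v) (Sv v).X₂ 2, ∃ w : H 𝒰 SF.X₂ 2,
      ∀ v, map (A := SF.X₂) (B := (Sv v).X₂) (hr v) (f v) 2 w = y v)
    (hs1 : ∀ t : ∀ v, H (𝒰v v) (Sv v).X₃ 1, ∃ tJ : H 𝒰 SR.X₂ 1,
      ∀ v, map (A := SR.X₂) (B := (Sv v).X₃) (hr v) (g v) 1 tJ = t v)
    (z : ∀ v, H (𝒰v v) (Sv v).X₁ 2) :
    ∃ x : H 𝒰 M 2, ∀ v, map (A := M) (B := (Sv v).X₁) (hr v) (m v) 2 x = z v := by
  -- Step 2: lift the images of the `z v` in `H²(FD)` to `w ∈ H²(ΦF J)`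
  obtain ⟨w, hw⟩ := hs2 (fun v => mapId (Sv v).f 2 (z v))
  -- Step 3: the image of `w` in `H²(ΦR J)` vanishes
  have h3 : mapId ρ.τ₂ 2 w = 0 := by
    apply h4R
    intro v
    rw [mapId_map_apply (hr v), c2 v, ← map_mapId_apply (hr v), hw v, mapId_g_f_apply]
  -- Step 4: the image of `w` in `H²(ΦF C)` vanishes
  have h4 : mapId SF.g 2 w = 0 := by
    apply hC2
    rw [mapId_mapId_apply, ← ρ.comm₂₃, ← mapId_mapId_apply, h3, map_zero]
  -- Step 5: `w` comes from `e ∈ H²(ΦF E)`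
  obtain ⟨e, he⟩ := exists_mapId_f_eq hSF smF 2 w h4
  -- Step 6/7: the image of `e` in `H²(ΦR E)` vanishes
  have h6 : mapId ρ.τ₁ 2 e = 0 := by
    have h : mapId SR.f 2 (mapId ρ.τ₁ 2 e) = 0 := by
      rw [mapId_mapId_apply, ρ.comm₁₂, ← mapId_mapId_apply, he, h3]
    obtain ⟨c, hc⟩ := exists_lcδ_eq hSR smR 1 2 rfl _ h
    rw [← hc, hC1 c, map_zero]
  -- `e` comes from `m₀ ∈ H²(M)`
  obtain ⟨m₀, hm₀⟩ := exists_mapId_f_eq (X := ShortComplex.mk i ρ.τ₁ hi) hSE smE 2 e h6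
  -- Step 8: the difference `z v - loc_v m₀` dies in `H²(FD)`
  have h8 : ∀ v, mapId (Sv v).f 2
      (z v - map (A := M) (B := (Sv v).X₁) (hr v) (m v) 2 m₀) = 0 := by
    intro v
    have hmi : mapId i 2 m₀ = e := hm₀
    rw [map_sub, map_mapId_apply (hr v), ← c1 v, ← mapId_map_apply (hr v),
      ← mapId_mapId_apply, hmi, he, hw v, sub_self]
  have h8' : ∀ v, ∃ t : H (𝒰v v) (Sv v).X₃ 1, lcδ (hSv v) (smv v) 1 2 rfl t =
      z v - map (A := M) (B := (Sv v).X₁) (hr v) (m v) 2 m₀ := fun v =>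
    exists_lcδ_eq (hSv v) (smv v) 1 2 rfl _ (h8 v)
  choose t ht using h8'
  -- Step 9: lift the `t v` to `H¹(ΦR J)`, then to `H¹(ΦR E)`
  obtain ⟨tJ, htJ⟩ := hs1 t
  obtain ⟨tE, htE⟩ := exists_mapId_f_eq hSR smR 1 tJ (hC1 _)
  -- Step 10
  refine ⟨m₀ + lcδ hSE smE 1 2 rfl tE, fun v => ?_⟩
  have hnat := lcδ_map_apply (hr v) hSE smE (hSv v) (smv v)
    (locRow ρ i hi r m f g c1 c2 v) 1 2 rfl tE
  have hloc : map (A := M) (B := (Sv v).X₁) (hr v) (m v) 2 (lcδ hSE smE 1 2 rfl tE) =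
      lcδ (hSv v) (smv v) 1 2 rfl (t v) := by
    refine hnat.trans ?_
    change lcδ (hSv v) (smv v) 1 2 rfl (map (A := SR.X₁) (B := (Sv v).X₃) (hr v)
      ((Rep.resFunctor (r v)).map SR.f ≫ g v) 1 tE) = _
    rw [← mapId_map_apply (hr v), htE, htJ v]
  rw [map_add, hloc, ht v]
  abel

include hSF smF hSR smR hSE smE c1 c2 hSv smv in
/-- **(TAIL0), abstract form, with local vanishing**: if moreover `H¹(G_v, RD_v) = 0` for every
`v` (so that `H²(G_v, M_v) → H²(G_v, FD_v)` is injective), it is enough to lift the ONE family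
`(i_v)_* (z v)` to `H²(ΦF J)`. -/
theorem exists_loc_eq_of_vanishing
    (hC1 : ∀ x : H 𝒰 SR.X₃ 1, x = 0)
    (hC2 : ∀ x : H 𝒰 SF.X₃ 2, mapId ρ.τ₃ 2 x = 0 → x = 0)
    (h4R : ∀ x : H 𝒰 SR.X₂ 2,
      (∀ v, map (A := SR.X₂) (B := (Sv v).X₃) (hr v) (g v) 2 x = 0) → x = 0)
    (hC1v : ∀ v, ∀ t : H (𝒰v v) (Sv v).X₃ 1, t = 0)
    (z : ∀ v, H (𝒰v v) (Sv v).X₁ 2)
    (hs2 : ∃ w : H 𝒰 SF.X₂ 2,
      ∀ v, map (A := SF.X₂) (B := (Sv v).X₂) (hr v) (f v) 2 w = mapId (Sv v).f 2 (z v)) :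
    ∃ x : H 𝒰 M 2, ∀ v, map (A := M) (B := (Sv v).X₁) (hr v) (m v) 2 x = z v := by
  obtain ⟨w, hw⟩ := hs2
  -- the image of `w` in `H²(ΦR J)` vanishes
  have h3 : mapId ρ.τ₂ 2 w = 0 := by
    apply h4R
    intro v
    rw [mapId_map_apply (hr v), c2 v, ← map_mapId_apply (hr v), hw v, mapId_g_f_apply]
  -- the image of `w` in `H²(ΦF C)` vanishes
  have h4 : mapId SF.g 2 w = 0 := by
    apply hC2
    rw [mapId_mapId_apply, ← ρ.comm₂₃, ← mapId_mapId_apply, h3, map_zero]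
  -- `w` comes from `e ∈ H²(ΦF E)`
  obtain ⟨e, he⟩ := exists_mapId_f_eq hSF smF 2 w h4
  -- the image of `e` in `H²(ΦR E)` vanishes
  have h6 : mapId ρ.τ₁ 2 e = 0 := by
    have h : mapId SR.f 2 (mapId ρ.τ₁ 2 e) = 0 := by
      rw [mapId_mapId_apply, ρ.comm₁₂, ← mapId_mapId_apply, he, h3]
    obtain ⟨c, hc⟩ := exists_lcδ_eq hSR smR 1 2 rfl _ h
    rw [← hc, hC1 c, map_zero]
  -- `e` comes from `m₀ ∈ H²(M)`
  obtain ⟨m₀, hm₀⟩ := exists_mapId_f_eq (X := ShortComplex.mk i ρ.τ₁ hi) hSE smE 2 e h6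
  refine ⟨m₀, fun v => ?_⟩
  -- the difference `z v - loc_v m₀` dies in `H²(FD)`, hence comes from `H¹(RD) = 0`
  have h8 : mapId (Sv v).f 2
      (z v - map (A := M) (B := (Sv v).X₁) (hr v) (m v) 2 m₀) = 0 := by
    have hmi : mapId i 2 m₀ = e := hm₀
    rw [map_sub, map_mapId_apply (hr v), ← c1 v, ← mapId_map_apply (hr v),
      ← mapId_mapId_apply, hmi, he, hw v, sub_self]
  obtain ⟨t, ht⟩ := exists_lcδ_eq (hSv v) (smv v) 1 2 rfl _ h8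
  rw [hC1v v t, map_zero] at ht
  exact (sub_eq_zero.1 ht.symm).symm

end Fermat.Agent.S56.Base.Tail
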